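import Mathlib.MeasureTheory.Integral.Average
import Mathlib.MeasureTheory.Group.Action
import Mathlib.MeasureTheory.Group.Arithmetic
import Mathlib.MeasureTheory.Measure.WithDensity
import Mathlib.MeasureTheory.Integral.Bochner.Set
import Mathlib.GroupTheory.Index

/-!
# Tiling weights for measure preserving actions

A *tiling weight* for a countable subgroup `G` of a group `A` acting on a measure space is a
function `w ≥ 0` with `∑_{g ∈ G} w (g • x) = 1` for a.e. `x`; it is a soft replacement of a
fundamental domain, well behaved with respect to non-faithful actions, finite index subgroups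
and conjugation.
-/

set_option autoImplicit false

noncomputable section

namespace Fermat.Agent.Petersson

open MeasureTheory
open scoped ENNReal

variable {A X : Type*} [Group A] [MulAction A X] [MeasurableSpace X]
  [MeasurableConstSMul A X] {μ : Measure X} [SMulInvariantMeasure A X μ]

/-- `w` is a tiling weight for the subgroup `G`. -/
structure IsTiling (μ : Measure X) (G : Subgroup A) (w : X → ℝ≥0∞) : Prop where
  measurable : Measurable w
  tsum_eq : ∀ᵐ x ∂μ, ∑' g : G, w ((g : A) • x) = 1

lemma lintegral_comp_smul (a : A) {F : X → ℝ≥0∞} (hF : Measurable F) :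
    ∫⁻ x, F (a • x) ∂μ = ∫⁻ x, F x ∂μ := by
  conv_rhs => rw [← (measurePreserving_smul a μ).map_eq]
  rw [lintegral_map hF (measurable_const_smul a)]

namespace IsTiling

variable {G : Subgroup A} {w w' : X → ℝ≥0∞} [Countable G]

/-- Two tiling weights give the same integral of an invariant function. -/
theorem lintegral_eq (hw : IsTiling μ G w) (hw' : IsTiling μ G w') {F : X → ℝ≥0∞}
    (hF : Measurable F) (hinv : ∀ g ∈ G, ∀ x, F (g • x) = F x) :
    ∫⁻ x, w x * F x ∂μ = ∫⁻ x, w' x * F x ∂μ := by
  calc ∫⁻ x, w x * F x ∂μ = ∫⁻ x, ∑' g : G, w x * F x * w' ((g : A) • x) ∂μ := by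
        refine lintegral_congr_ae ?_
        filter_upwards [hw'.tsum_eq] with x hx
        rw [ENNReal.tsum_mul_left, hx, mul_one]
    _ = ∑' g : G, ∫⁻ x, w x * F x * w' ((g : A) • x) ∂μ :=
        lintegral_tsum fun g ↦ ((hw.measurable.mul hF).mul
          (hw'.measurable.comp (measurable_const_smul _))).aemeasurable
    _ = ∑' g : G, ∫⁻ x, w' x * F x * w ((g : A) • x) ∂μ := by
        rw [← (Equiv.inv G).tsum_eq]
        refine tsum_congr fun g ↦ ?_
        simp only [Equiv.inv_apply, Subgroup.coe_inv]
        conv_lhs =>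
          rw [← lintegral_comp_smul (g : A) (F := fun x ↦ w x * F x * w' ((g : A)⁻¹ • x))
            ((hw.measurable.mul hF).mul (hw'.measurable.comp (measurable_const_smul _)))]
        refine lintegral_congr fun x ↦ ?_
        simp only [inv_smul_smul, hinv _ g.2]
        ring
    _ = ∫⁻ x, ∑' g : G, w' x * F x * w ((g : A) • x) ∂μ :=
        (lintegral_tsum fun g ↦ ((hw'.measurable.mul hF).mul
          (hw.measurable.comp (measurable_const_smul _))).aemeasurable).symm
    _ = ∫⁻ x, w' x * F x ∂μ := by
        refine lintegral_congr_ae ?_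
        filter_upwards [hw.tsum_eq] with x hx
        rw [ENNReal.tsum_mul_left, hx, mul_one]

/-- If a nonnegative invariant function has zero weighted integral, it vanishes a.e. -/
theorem ae_eq_zero_of_lintegral_eq_zero (hw : IsTiling μ G w) {F : X → ℝ≥0∞}
    (hF : Measurable F) (hinv : ∀ g ∈ G, ∀ x, F (g • x) = F x)
    (h0 : ∫⁻ x, w x * F x ∂μ = 0) : F =ᵐ[μ] 0 := by
  rw [← lintegral_eq_zero_iff hF]
  calc ∫⁻ x, F x ∂μ = ∫⁻ x, ∑' g : G, w ((g : A) • x) * F x ∂μ := by
        refine lintegral_congr_ae ?_
        filter_upwards [hw.tsum_eq] with x hx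
        rw [ENNReal.tsum_mul_right, hx, one_mul]
    _ = ∑' g : G, ∫⁻ x, w ((g : A) • x) * F x ∂μ :=
        lintegral_tsum fun g ↦
          ((hw.measurable.comp (measurable_const_smul _)).mul hF).aemeasurable
    _ = 0 := by
        refine ENNReal.tsum_eq_zero.mpr fun g ↦ ?_
        rw [← h0, ← lintegral_comp_smul (μ := μ) (g : A) (F := fun x ↦ w x * F x)
          (hw.measurable.mul hF)]
        simp [hinv _ g.2]

/-- A tiling weight for a nonzero measure has nonzero integral. -/
theorem lintegral_ne_zero (hw : IsTiling μ G w) (hμ : μ ≠ 0) : ∫⁻ x, w x ∂μ ≠ 0 := by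
  intro h0
  have h := hw.ae_eq_zero_of_lintegral_eq_zero (F := fun _ ↦ 1) measurable_const
    (fun _ _ _ ↦ rfl) (by simpa using h0)
  have : Filter.NeBot (ae μ) := ae_neBot.mpr hμ
  obtain ⟨x, hx⟩ := Filter.Eventually.exists h
  exact one_ne_zero hx

omit [Countable G] [SMulInvariantMeasure A X μ] in
/-- Transport of a tiling weight by `a : A`. -/
theorem comp_smul [SMulInvariantMeasure A X μ] (hw : IsTiling μ G w) (a : A) :
    IsTiling μ (G.comap (MulAut.conj a).toMonoidHom) (fun x ↦ w (a • x)) := by
  refine ⟨hw.measurable.comp (measurable_const_smul a), ?_⟩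
  have h : ∀ᵐ x ∂μ, ∑' g : G, w ((g : A) • a • x) = 1 :=
    (measurePreserving_smul a μ).quasiMeasurePreserving.ae hw.tsum_eq
  filter_upwards [h] with x hx
  rw [← hx]
  let e : G.comap (MulAut.conj a).toMonoidHom ≃ G :=
    (MulAut.conj a).toEquiv.subtypeEquiv fun _ ↦ Iff.rfl
  rw [← e.tsum_eq]
  refine tsum_congr fun g ↦ ?_
  change w (a • (g : A) • x) = w (MulAut.conj a (g : A) • a • x)
  simp [smul_smul, mul_assoc]

end IsTiling

section refine

variable (K G : Subgroup A)

/-- The tiling weight for `K ≤ G` induced by one for `G`: the sum over coset representatives. -/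
def refineWeight (w : X → ℝ≥0∞) (x : X) : ℝ≥0∞ :=
  ∑' q : G ⧸ K.subgroupOf G, w ((q.out : A) • x)

variable {K G} {w : X → ℝ≥0∞}

omit [SMulInvariantMeasure A X μ] in
/-- `refineWeight` tiles for the smaller group. -/
lemma IsTiling.refine (hw : IsTiling μ G w) (hKG : K ≤ G) [Countable G] :
    IsTiling μ K (refineWeight K G w) := by
  have : Countable (G ⧸ K.subgroupOf G) := QuotientGroup.mk_surjective.countable
  refine ⟨Measurable.tsum fun q ↦ hw.measurable.comp (measurable_const_smul _), ?_⟩
  filter_upwards [hw.tsum_eq] with x hx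
  rw [← hx]
  simp only [refineWeight]
  rw [ENNReal.tsum_comm, ← ENNReal.tsum_prod]
  let F : (G ⧸ K.subgroupOf G) × K → G := fun p ↦ p.1.out * ⟨(p.2 : A), hKG p.2.2⟩
  have hmem : ∀ k : K, (⟨(k : A), hKG k.2⟩ : G) ∈ K.subgroupOf G :=
    fun k ↦ Subgroup.mem_subgroupOf.mpr k.2
  have hq : ∀ p, QuotientGroup.mk (s := K.subgroupOf G) (F p) = p.1 := fun p ↦ by
    rw [QuotientGroup.mk_mul_of_mem _ (hmem p.2), QuotientGroup.out_eq']
  have hF : Function.Bijective F := by
    refine ⟨fun p p' h ↦ ?_, fun g ↦ ?_⟩
    · have h1 : p.1 = p'.1 := by rw [← hq p, h, hq p']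
      refine Prod.ext h1 (Subtype.ext ?_)
      have h2 := congrArg (Subtype.val : G → A) h
      simp only [F, Subgroup.coe_mul, h1] at h2
      exact mul_left_cancel h2
    · refine ⟨(QuotientGroup.mk g, ⟨(((QuotientGroup.mk g :
        G ⧸ K.subgroupOf G).out)⁻¹ * g : G), ?_⟩), ?_⟩
      · exact Subgroup.mem_subgroupOf.mp (QuotientGroup.eq.mp (QuotientGroup.out_eq' _))
      · exact Subtype.ext (by simp [F])
  conv_rhs => rw [← (Equiv.ofBijective F hF).tsum_eq]
  refine tsum_congr fun p ↦ ?_
  simp [F, smul_smul]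

/-- Integrals against the refined weight are the index times those against the original weight. -/
lemma lintegral_refineWeight [Countable G] (hw : Measurable w)
    {F : X → ℝ≥0∞} (hF : Measurable F) (hinv : ∀ g ∈ G, ∀ x, F (g • x) = F x)
    [Fintype (G ⧸ K.subgroupOf G)] :
    ∫⁻ x, refineWeight K G w x * F x ∂μ = K.relIndex G * ∫⁻ x, w x * F x ∂μ := by
  simp only [refineWeight, tsum_fintype, Finset.sum_mul]
  rw [lintegral_finsetSum (f := fun (q : G ⧸ K.subgroupOf G) x ↦ w ((q.out : A) • x) * F x) _
    fun q _ ↦ (hw.comp (measurable_const_smul _)).mul hF]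
  have key : ∀ q : G ⧸ K.subgroupOf G,
      ∫⁻ x, w ((q.out : A) • x) * F x ∂μ = ∫⁻ x, w x * F x ∂μ := fun q ↦ by
    conv_rhs => rw [← lintegral_comp_smul (μ := μ) (q.out : A) (F := fun x ↦ w x * F x) (hw.mul hF)]
    simp [hinv _ q.out.2]
  rw [Finset.sum_congr rfl fun q _ ↦ key q, Finset.sum_const, Finset.card_univ, nsmul_eq_mul,
    Subgroup.relIndex, Subgroup.index, Nat.card_eq_fintype_card]

end refine

section average

variable {G : Subgroup A} {w w' : X → ℝ≥0∞}
variable {E : Type*} [NormedAddCommGroup E] [NormedSpace ℝ E] [MeasurableSpace E] [BorelSpace E]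
  [SecondCountableTopology E]

/-- The orbit projection. -/
abbrev orbitMk (G : Subgroup A) (x : X) : MulAction.orbitRel.Quotient G X :=
  Quotient.mk'' x

omit [MeasurableConstSMul A X] in
lemma measurable_orbitMk (G : Subgroup A) : Measurable (orbitMk (X := X) G) :=
  measurable_quotient_mk''

/-- Weighted averages of `G`-invariant functions only depend on `G`, and are compatible with
finite index subgroups. -/
theorem average_withDensity_eq {K : Subgroup A} [Countable G] [Countable K]
    (hKG : K ≤ G) (hfin : K.relIndex G ≠ 0)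
    (hw : IsTiling μ G w) (hw' : IsTiling μ K w') {H : X → E} (hH : Measurable H)
    (hinv : ∀ g ∈ G, ∀ x, H (g • x) = H x) :
    ⨍ x, H x ∂μ.withDensity w' = ⨍ x, H x ∂μ.withDensity w := by
  classical
  have : (K.subgroupOf G).FiniteIndex := ⟨hfin⟩
  let : Fintype (G ⧸ K.subgroupOf G) := Subgroup.fintypeQuotientOfFiniteIndex
  have hnu : Measure.map (orbitMk G) (μ.withDensity w') =
      (K.relIndex G : ℝ≥0∞) • Measure.map (orbitMk G) (μ.withDensity w) := by
    ext S hS
    rw [Measure.smul_apply, Measure.map_apply (measurable_orbitMk G) hS,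
      Measure.map_apply (measurable_orbitMk G) hS, smul_eq_mul]
    set T := orbitMk (X := X) G ⁻¹' S
    have hT : MeasurableSet T := measurable_orbitMk G hS
    have hTinv : ∀ g ∈ G, ∀ x, T.indicator (1 : X → ℝ≥0∞) (g • x) = T.indicator 1 x := by
      intro g hg x
      have : orbitMk G (g • x) = orbitMk G x :=
        Quotient.sound' ⟨⟨g, hg⟩, rfl⟩
      simp [Set.indicator, T, Set.mem_preimage, this]
    have key : ∀ v : X → ℝ≥0∞, (μ.withDensity v) T = ∫⁻ x, v x * T.indicator 1 x ∂μ := by
      intro v
      rw [withDensity_apply _ hT, ← lintegral_indicator hT]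
      congr 1
      ext x
      by_cases hx : x ∈ T <;> simp [hx]
    rw [key, key, hw'.lintegral_eq (hw.refine hKG) (measurable_one.indicator hT)
        fun g hg ↦ hTinv g (hKG hg)]
    exact lintegral_refineWeight hw.measurable (measurable_one.indicator hT) hTinv
  let Hbar : MulAction.orbitRel.Quotient G X → E :=
    Quotient.lift H fun a b ⟨g, hg⟩ ↦ by
      change (g : A) • b = a at hg
      rw [← hg, hinv _ g.2]
  have hbar : Measurable Hbar := measurable_from_quotient.mpr hH
  have hmap : ∀ ν : Measure X, ⨍ x, H x ∂ν = ⨍ y, Hbar y ∂(ν.map (orbitMk G)) := by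
    intro ν
    rw [average_eq, average_eq, integral_map (measurable_orbitMk G).aemeasurable
      hbar.aestronglyMeasurable, Measure.real, Measure.real,
      Measure.map_apply (measurable_orbitMk G) MeasurableSet.univ, Set.preimage_univ]
    rfl
  rw [hmap, hmap, hnu, average_eq, average_eq, integral_smul_measure, Measure.real,
    Measure.real, Measure.smul_apply, smul_eq_mul, ENNReal.toReal_mul, smul_smul]
  congr 1
  have hne : ((K.relIndex G : ℝ≥0∞)).toReal ≠ 0 := by simpa using hfin
  field_simp

omit [SMulInvariantMeasure A X μ] [MeasurableSpace E] [BorelSpace E] [SecondCountableTopology E] in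
/-- Change of variables in a weighted average. -/
theorem average_withDensity_comp_smul [SMulInvariantMeasure A X μ] (a : A)
    (hw : Measurable w) (H : X → E) :
    ⨍ x, H (a • x) ∂μ.withDensity (fun x ↦ w (a • x)) = ⨍ x, H x ∂μ.withDensity w := by
  have he : MeasurableEmbedding (fun x : X ↦ a • x) := measurableEmbedding_const_smul a
  have hmap : (μ.withDensity fun x ↦ w (a • x)).map (fun x ↦ a • x) = μ.withDensity w := by
    ext S hS
    rw [Measure.map_apply he.measurable hS, withDensity_apply _ (he.measurable hS),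
      withDensity_apply _ hS, ← lintegral_indicator (he.measurable hS), ← lintegral_indicator hS,
      ← lintegral_comp_smul (μ := μ) a (hw.indicator hS)]
    rfl
  rw [← hmap, average_eq, average_eq, he.integral_map, Measure.real, Measure.real,
    Measure.map_apply he.measurable MeasurableSet.univ, Set.preimage_univ]

end average

end Fermat.Agent.Petersson
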