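import Mathlib.Analysis.Complex.UpperHalfPlane.Measure
import Mathlib.NumberTheory.Modular
import Mathlib.NumberTheory.ModularForms.CongruenceSubgroups
import Mathlib.MeasureTheory.Measure.Lebesgue.Complex
import Mathlib.MeasureTheory.Measure.Lebesgue.EqHaar
import Mathlib.Analysis.SpecialFunctions.ImproperIntegrals
import Fermat.Agent.Petersson.TilingWeight

/-!
# The average of an automorphic function on `ℍ`

For a bounded continuous function `H : ℍ → ℂ` invariant under some arithmetic subgroup, `avg H`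
is its mean value for the hyperbolic measure on a fundamental domain. It does not depend on the
arithmetic subgroup, it is linear, and it is invariant under `GL(2, ℚ)`.
-/

set_option autoImplicit false

noncomputable section

namespace Fermat.Agent.Petersson

open MeasureTheory UpperHalfPlane Matrix.SpecialLinearGroup
open scoped ENNReal MatrixGroups Modular ComplexConjugate Pointwise

/-! ### The volume on `ℍ` -/

lemma volume_eq_zero_iff (s : Set ℍ) :
    volume s = 0 ↔ volume ((↑) '' s : Set ℂ) = 0 := by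
  have hm : Measurable fun z : ℍ ↦ NNReal.mk z.im z.im_pos.le :=
    continuous_im.measurable.subtype_mk
  rw [volume_def, withDensity_apply_eq_zero'
    ((hm.const_div 1).pow_const 2).coe_nnreal_ennreal.aemeasurable]
  rw [show {z : ℍ | ((1 / NNReal.mk z.im z.im_pos.le) ^ 2 : NNReal) ≠ (0 : ℝ≥0∞)} = Set.univ from
    Set.eq_univ_of_forall fun z ↦ by simp [NNReal.eq_iff, z.im_ne_zero],
    Set.univ_inter, measurableEmbedding_coe.comap_apply]

instance instIsOpenPosMeasureVolume : (volume : Measure ℍ).IsOpenPosMeasure :=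
  ⟨fun U hU hne h ↦
    (isOpenEmbedding_coe.isOpenMap U hU).measure_ne_zero volume (hne.image _)
      ((volume_eq_zero_iff U).mp h)⟩

lemma volume_complex_re_eq (c : ℝ) : volume {z : ℂ | z.re = c} = 0 := by
  rw [show {z : ℂ | z.re = c} = Complex.measurableEquivRealProd ⁻¹' ({c} ×ˢ Set.univ) by
      ext z; simp [Complex.measurableEquivRealProd],
    Complex.volume_preserving_equiv_real_prod.measure_preimage
      ((measurableSet_singleton c).prod MeasurableSet.univ).nullMeasurableSet]
  change (volume.prod volume) _ = 0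
  rw [Measure.prod_prod]
  simp

lemma volume_fd_diff_fdo : volume (𝒟 \ 𝒟ᵒ) = 0 := by
  rw [volume_eq_zero_iff]
  refine measure_mono_null (t := Metric.sphere 0 1 ∪ ({z : ℂ | z.re = 1 / 2} ∪
    {z : ℂ | z.re = -(1 / 2)})) ?_
    (measure_union_null (Measure.addHaar_sphere _ _ _)
      (measure_union_null (volume_complex_re_eq _) (volume_complex_re_eq _)))
  rintro _ ⟨z, ⟨⟨h1, h2⟩, hz⟩, rfl⟩
  simp only [ModularGroup.fdo, Set.mem_ofPred_eq, not_and_or, not_lt] at hz
  rcases hz with hz | hz
  · refine Or.inl ?_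
    rw [mem_sphere_zero_iff_norm]
    have h : Complex.normSq (z : ℂ) = 1 := le_antisymm hz h1
    rw [Complex.normSq_eq_norm_sq] at h
    nlinarith [norm_nonneg (z : ℂ)]
  · refine Or.inr ?_
    have h : |z.re| = 1 / 2 := le_antisymm h2 hz
    rcases abs_choice z.re with h' | h' <;> rw [h'] at h
    · exact Or.inl (by simpa using h)
    · refine Or.inr ?_
      simp only [Set.mem_ofPred_eq, coe_re]
      linarith

/-- The standard fundamental domain has finite volume. -/
lemma volume_fd_lt_top : volume (𝒟 : Set ℍ) < ∞ := by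
  rw [volume_eq_lintegral]
  calc ∫⁻ z : ℂ in (↑) '' 𝒟, (((1 / ‖z.im‖₊) ^ 2 : NNReal) : ℝ≥0∞)
      ≤ ∫⁻ z : ℂ in Complex.measurableEquivRealProd ⁻¹'
          (Set.Icc (-1) 1 ×ˢ Set.Ioi (1 / 2)), ENNReal.ofReal (z.im ^ (-2 : ℝ)) := by
        refine le_trans (le_of_eq
          (b := ∫⁻ z : ℂ in (↑) '' 𝒟, ENNReal.ofReal (z.im ^ (-2 : ℝ))) ?_)
          (lintegral_mono_set ?_)
        · refine setLIntegral_congr_fun
            (measurableEmbedding_coe.measurableSet_image.mpr ModularGroup.isClosed_fd.measurableSet)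
            ?_
          rintro _ ⟨τ, -, rfl⟩
          change ((_ : NNReal) : ℝ≥0∞) = ENNReal.ofReal (τ.im ^ (-2 : ℝ))
          rw [← ENNReal.ofReal_coe_nnreal]
          congr 1
          push_cast
          rw [coe_im, Real.norm_of_nonneg τ.im_pos.le, Real.rpow_neg τ.im_pos.le,
            show (2 : ℝ) = ((2 : ℕ) : ℝ) by norm_num, Real.rpow_natCast, div_pow, one_pow, one_div]
        · rintro _ ⟨τ, hτ, rfl⟩
          simp only [Complex.measurableEquivRealProd_apply, Set.mem_preimage, Set.mem_prod,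
            Set.mem_Icc, Set.mem_Ioi, coe_re, coe_im]
          obtain ⟨h1, h2⟩ := abs_le.mp hτ.2
          exact ⟨⟨by linarith, by linarith⟩, by
            nlinarith [ModularGroup.three_le_four_mul_im_sq_of_mem_fd hτ, τ.im_pos]⟩
    _ = ∫⁻ q : ℝ × ℝ in Set.Icc (-1) 1 ×ˢ Set.Ioi (1 / 2),
          ENNReal.ofReal (q.2 ^ (-2 : ℝ)) ∂(volume.prod volume) :=
        Complex.volume_preserving_equiv_real_prod.setLIntegral_comp_preimage_emb
          Complex.measurableEquivRealProd.measurableEmbedding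
          (fun q : ℝ × ℝ ↦ ENNReal.ofReal (q.2 ^ (-2 : ℝ))) _
    _ < ∞ := by
        rw [setLIntegral_prod _ (by fun_prop)]
        simp only [lintegral_const, Measure.restrict_apply_univ]
        refine ENNReal.mul_lt_top ?_ measure_Icc_lt_top
        exact (hasFiniteIntegral_iff_ofReal (f := fun y : ℝ ↦ y ^ (-2 : ℝ))
          ((ae_restrict_iff' measurableSet_Ioi).mpr (.of_forall fun y hy ↦
            Real.rpow_nonneg (le_trans (by norm_num) (le_of_lt hy)) _))).mp
          (integrableOn_Ioi_rpow_of_lt (by norm_num) (by norm_num)).2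

/-! ### The weight for `SL(2, ℤ)` -/

/-- Half the indicator of the standard fundamental domain. -/
def baseWeight : ℍ → ℝ≥0∞ :=
  (𝒟 : Set ℍ).indicator fun _ ↦ 2⁻¹

/-- `baseWeight` is measurable. -/
lemma measurable_baseWeight : Measurable baseWeight :=
  measurable_const.indicator ModularGroup.isClosed_fd.measurableSet

/-- `baseWeight` has finite integral. -/
lemma lintegral_baseWeight_lt_top : ∫⁻ τ, baseWeight τ < ∞ := by
  rw [baseWeight, lintegral_indicator_const ModularGroup.isClosed_fd.measurableSet]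
  exact ENNReal.mul_lt_top (by simp) volume_fd_lt_top

/-- `SL(2, ℤ)` is countable. -/
instance instCountableSL : Countable SL(2, ℤ) :=
  Function.Injective.countable (f := fun g : SL(2, ℤ) ↦ fun i j ↦ g i j)
    fun _ _ h ↦ Subtype.ext (Matrix.ext fun i j ↦ congrFun (congrFun h i) j)

instance instCountableSLRange : Countable 𝒮ℒ :=
  (MonoidHom.rangeRestrict_surjective _).countable

/-- `baseWeight` is a tiling weight for `SL(2, ℤ)`. -/
lemma isTiling_baseWeight : IsTiling volume 𝒮ℒ baseWeight := by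
  refine ⟨measurable_baseWeight, ?_⟩
  have hgood : ∀ᵐ τ : ℍ, ∀ g : SL(2, ℤ), g • τ ∉ 𝒟 \ 𝒟ᵒ := by
    rw [ae_all_iff]
    intro g
    exact (measurePreserving_smul (mapGL ℝ g) (volume : Measure ℍ)).quasiMeasurePreserving.ae
      (p := fun τ ↦ τ ∉ 𝒟 \ 𝒟ᵒ) (measure_eq_zero_iff_ae_notMem.mp volume_fd_diff_fdo)
  filter_upwards [hgood] with τ hτ
  let e : SL(2, ℤ) ≃ 𝒮ℒ := (MonoidHom.ofInjective mapGL_injective).toEquiv
  rw [← e.tsum_eq]
  have he : ∀ g : SL(2, ℤ), ((e g : 𝒮ℒ) : GL (Fin 2) ℝ) • τ = g • τ := fun g ↦ rfl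
  simp only [he]
  obtain ⟨g₀, hg₀⟩ := ModularGroup.exists_smul_mem_fd τ
  have hg₀' : g₀ • τ ∈ 𝒟ᵒ := by
    by_contra h
    exact hτ g₀ ⟨hg₀, h⟩
  have hne : g₀ ≠ -g₀ := by
    intro h
    have h00 := congrArg (fun m : SL(2, ℤ) ↦ (m 0 0 : ℤ)) h
    have h01 := congrArg (fun m : SL(2, ℤ) ↦ (m 0 1 : ℤ)) h
    simp only [Matrix.SpecialLinearGroup.coe_neg, Matrix.neg_apply] at h00 h01
    have := g₀.det_coe
    rw [Matrix.det_fin_two, show g₀ 0 0 = 0 by omega, show g₀ 0 1 = 0 by omega] at this
    simp at this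
  have hsupp : ∀ g ∉ ({g₀, -g₀} : Finset SL(2, ℤ)), baseWeight (g • τ) = 0 := by
    intro g hg
    rw [baseWeight, Set.indicator_of_notMem]
    intro hmem
    have hmem' : (g * g₀⁻¹) • g₀ • τ ∈ 𝒟 := by rwa [smul_smul, inv_mul_cancel_right]
    apply hg
    rcases ModularGroup.eq_one_or_neg_one_of_mem_fdo_mem_fd hg₀' hmem' with h | h
    · simp [mul_inv_eq_one.mp h]
    · have : g = -g₀ := by rw [← inv_mul_cancel_right g g₀, h, neg_one_mul]
      simp [this]
  rw [tsum_eq_sum hsupp, Finset.sum_pair hne, ModularGroup.SL_neg_smul, baseWeight,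
    Set.indicator_of_mem hg₀]
  exact ENNReal.inv_two_add_inv_two

/-! ### Averages -/

lemma countable_of_isArithmetic (G : Subgroup (GL (Fin 2) ℝ)) [G.IsArithmetic] : Countable G := by
  have h : ((𝒮ℒ : Subgroup (GL (Fin 2) ℝ)).subgroupOf G).FiniteIndex :=
    ⟨Subgroup.IsArithmetic.is_commensurable.2⟩
  have : Countable ((𝒮ℒ : Subgroup (GL (Fin 2) ℝ)).subgroupOf G) :=
    Function.Injective.countable
      (f := fun x : (𝒮ℒ : Subgroup (GL (Fin 2) ℝ)).subgroupOf G ↦
        (⟨((x : G) : GL (Fin 2) ℝ), Subgroup.mem_subgroupOf.mp x.2⟩ : 𝒮ℒ))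
      fun x y hxy ↦ Subtype.ext (Subtype.ext (congrArg Subtype.val hxy :))
  have : Finite (G ⧸ (𝒮ℒ : Subgroup (GL (Fin 2) ℝ)).subgroupOf G) :=
    Subgroup.finite_quotient_of_finiteIndex
  exact (Subgroup.groupEquivQuotientProdSubgroup
    (s := (𝒮ℒ : Subgroup (GL (Fin 2) ℝ)).subgroupOf G)).injective.countable

/-- Invariance of `H` under some arithmetic subgroup, continuity and boundedness. -/
structure Averageable (H : ℍ → ℂ) : Prop where
  continuous : Continuous H
  bounded : ∃ C, ∀ τ, ‖H τ‖ ≤ C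
  invariant : ∃ G : Subgroup (GL (Fin 2) ℝ), G.IsArithmetic ∧ G ≤ 𝒮ℒ ∧
    ∀ g ∈ G, ∀ τ, H (g • τ) = H τ

/-- The hyperbolic measure of a fundamental domain of `G ≤ SL(2, ℤ)`. -/
def domainMeasure (G : Subgroup (GL (Fin 2) ℝ)) : Measure ℍ :=
  volume.withDensity (refineWeight G 𝒮ℒ baseWeight)

open Classical in
/-- The mean value of an automorphic function. -/
def avg (H : ℍ → ℂ) : ℂ :=
  if h : Averageable H then ⨍ τ, H τ ∂domainMeasure h.invariant.choose else 0

instance isFiniteMeasure_domainMeasure (G : Subgroup (GL (Fin 2) ℝ)) [G.IsArithmetic] :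
    IsFiniteMeasure (domainMeasure G) := by
  refine isFiniteMeasure_withDensity ?_
  have h : (G.subgroupOf 𝒮ℒ).FiniteIndex := ⟨Subgroup.IsArithmetic.is_commensurable.1⟩
  let := Subgroup.fintypeQuotientOfFiniteIndex (H := G.subgroupOf 𝒮ℒ)
  have h1 := lintegral_refineWeight (μ := (volume : Measure ℍ)) (K := G) (G := 𝒮ℒ)
    measurable_baseWeight (F := fun _ ↦ 1) measurable_const (fun _ _ _ ↦ rfl)
  simp only [mul_one] at h1
  rw [h1]
  exact (ENNReal.mul_lt_top (ENNReal.natCast_lt_top _) lintegral_baseWeight_lt_top).ne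

lemma Averageable.integrable {H : ℍ → ℂ} (h : Averageable H) (μ : Measure ℍ) [IsFiniteMeasure μ] :
    Integrable H μ := by
  obtain ⟨C, hC⟩ := h.bounded
  exact Integrable.of_bound h.continuous.aestronglyMeasurable C (.of_forall hC)

/-- The average can be computed with any arithmetic invariance group and any tiling weight. -/
lemma avg_eq {H : ℍ → ℂ} (hH : Averageable H) (G : Subgroup (GL (Fin 2) ℝ)) [G.IsArithmetic]
    (hinv : ∀ g ∈ G, ∀ τ, H (g • τ) = H τ) {w : ℍ → ℝ≥0∞} (hw : IsTiling volume G w) :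
    avg H = ⨍ τ, H τ ∂(volume : Measure ℍ).withDensity w := by
  rw [avg, dif_pos hH, domainMeasure]
  set G₀ := hH.invariant.choose
  obtain ⟨harith, hle, hinv₀⟩ := hH.invariant.choose_spec
  have := harith
  have : Countable G := countable_of_isArithmetic G
  have : Countable G₀ := countable_of_isArithmetic G₀
  have : Countable (G₀ ⊓ G : Subgroup (GL (Fin 2) ℝ)) := countable_of_isArithmetic _
  have hw₀ := isTiling_baseWeight.refine hle
  have hwK := hw.refine (inf_le_right : G₀ ⊓ G ≤ G)
  have hcomm : Subgroup.Commensurable G₀ G :=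
    Subgroup.IsArithmetic.is_commensurable.trans Subgroup.IsArithmetic.is_commensurable.symm
  rw [← average_withDensity_eq inf_le_right (by rw [Subgroup.inf_relIndex_right]; exact hcomm.1)
      hw hwK hH.continuous.measurable hinv,
    average_withDensity_eq inf_le_left (by rw [Subgroup.inf_relIndex_left]; exact hcomm.2)
      hw₀ hwK hH.continuous.measurable hinv₀]

lemma avg_eq_domainMeasure {H : ℍ → ℂ} (hH : Averageable H) (G : Subgroup (GL (Fin 2) ℝ))
    [G.IsArithmetic] (hG : G ≤ 𝒮ℒ) (hinv : ∀ g ∈ G, ∀ τ, H (g • τ) = H τ) :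
    avg H = ⨍ τ, H τ ∂domainMeasure G :=
  avg_eq hH G hinv (isTiling_baseWeight.refine hG)

namespace Averageable

variable {H H' : ℍ → ℂ}

/-- A sum of averageable functions is averageable. -/
protected lemma add (h : Averageable H) (h' : Averageable H') : Averageable (H + H') := by
  obtain ⟨C, hC⟩ := h.bounded
  obtain ⟨C', hC'⟩ := h'.bounded
  obtain ⟨G, hG, hle, hinv⟩ := h.invariant
  obtain ⟨G', hG', -, hinv'⟩ := h'.invariant
  refine ⟨h.continuous.add h'.continuous,
    ⟨C + C', fun τ ↦ (norm_add_le _ _).trans (add_le_add (hC τ) (hC' τ))⟩,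
    ⟨G ⊓ G', inferInstance, inf_le_left.trans hle, fun g hg τ ↦ ?_⟩⟩
  simp [hinv g hg.1, hinv' g hg.2]

/-- A scalar multiple of an averageable function is averageable. -/
protected lemma const_mul (h : Averageable H) (c : ℂ) : Averageable (fun τ ↦ c * H τ) := by
  obtain ⟨C, hC⟩ := h.bounded
  obtain ⟨G, hG, hle, hinv⟩ := h.invariant
  refine ⟨continuous_const.mul h.continuous, ⟨‖c‖ * C, fun τ ↦ ?_⟩,
    ⟨G, hG, hle, fun g hg τ ↦ by simp [hinv g hg]⟩⟩
  rw [norm_mul]
  exact mul_le_mul_of_nonneg_left (hC τ) (norm_nonneg c)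

/-- The complex conjugate of an averageable function is averageable. -/
protected lemma conjugate (h : Averageable H) : Averageable (fun τ ↦ conj (H τ)) := by
  obtain ⟨C, hC⟩ := h.bounded
  obtain ⟨G, hG, hle, hinv⟩ := h.invariant
  exact ⟨Complex.continuous_conj.comp h.continuous, ⟨C, fun τ ↦ by simpa using hC τ⟩,
    ⟨G, hG, hle, fun g hg τ ↦ by simp [hinv g hg]⟩⟩

/-- A finite sum of averageable functions is averageable. -/
protected lemma sum {ι : Type*} {s : Finset ι} {F : ι → ℍ → ℂ}
    (h : ∀ i ∈ s, Averageable (F i)) : Averageable (∑ i ∈ s, F i) :=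
  Finset.sum_induction _ Averageable (fun _ _ ↦ Averageable.add)
    ⟨continuous_const, ⟨0, fun _ ↦ by simp⟩, ⟨𝒮ℒ, inferInstance, le_rfl, fun _ _ _ ↦ rfl⟩⟩ h

/-- The translate of an averageable function by `GL(2, ℚ)` is averageable. -/
protected lemma comp_smul (h : Averageable H) (q : GL (Fin 2) ℚ) :
    Averageable (fun τ ↦ H (q.map (Rat.castHom ℝ) • τ)) := by
  obtain ⟨C, hC⟩ := h.bounded
  obtain ⟨G, hG, hle, hinv⟩ := h.invariant
  refine ⟨h.continuous.comp (continuous_const_smul _), ⟨C, fun τ ↦ hC _⟩,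
    ⟨ConjAct.toConjAct (q⁻¹.map (Rat.castHom ℝ)) • G ⊓ 𝒮ℒ, ?_, inf_le_right, fun g hg τ ↦ ?_⟩⟩
  · have := Subgroup.IsArithmetic.conj G q⁻¹
    exact Subgroup.IsArithmetic.inter
  · have hg1 := hg.1
    rw [map_inv, ConjAct.toConjAct_inv] at hg1
    have := Subgroup.mem_inv_pointwise_smul_iff.mp hg1
    rw [ConjAct.toConjAct_smul] at this
    simpa [smul_smul] using hinv _ this (q.map (Rat.castHom ℝ) • τ)

end Averageable

/-- The average is additive. -/
lemma avg_add {H H' : ℍ → ℂ} (h : Averageable H) (h' : Averageable H') :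
    avg (H + H') = avg H + avg H' := by
  obtain ⟨G, hG, hle, hinv⟩ := h.invariant
  obtain ⟨G', hG', -, hinv'⟩ := h'.invariant
  have hK : G ⊓ G' ≤ 𝒮ℒ := inf_le_left.trans hle
  rw [avg_eq_domainMeasure (h.add h') _ hK fun g hg τ ↦ by simp [hinv g hg.1, hinv' g hg.2],
    avg_eq_domainMeasure h _ hK fun g hg ↦ hinv g hg.1,
    avg_eq_domainMeasure h' _ hK fun g hg ↦ hinv' g hg.2,
    average_eq, average_eq, average_eq, ← smul_add,
    ← integral_add (h.integrable _) (h'.integrable _)]
  rfl

/-- The average is homogeneous. -/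
lemma avg_const_mul {H : ℍ → ℂ} (h : Averageable H) (c : ℂ) :
    avg (fun τ ↦ c * H τ) = c * avg H := by
  obtain ⟨G, hG, hle, hinv⟩ := h.invariant
  rw [avg_eq_domainMeasure (h.const_mul c) _ hle fun g hg τ ↦ by simp [hinv g hg],
    avg_eq_domainMeasure h _ hle hinv, average_eq, average_eq, integral_const_mul,
    mul_smul_comm]

/-- The average commutes with conjugation. -/
lemma avg_conj {H : ℍ → ℂ} (h : Averageable H) : avg (fun τ ↦ conj (H τ)) = conj (avg H) := by
  obtain ⟨G, hG, hle, hinv⟩ := h.invariant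
  rw [avg_eq_domainMeasure h.conjugate _ hle fun g hg τ ↦ by simp [hinv g hg],
    avg_eq_domainMeasure h _ hle hinv, average_eq, average_eq, integral_conj,
    Complex.real_smul, Complex.real_smul, map_mul, Complex.conj_ofReal]

/-- The average commutes with finite sums. -/
lemma avg_sum {ι : Type*} {s : Finset ι} {F : ι → ℍ → ℂ} (h : ∀ i ∈ s, Averageable (F i)) :
    avg (∑ i ∈ s, F i) = ∑ i ∈ s, avg (F i) := by
  classical
  induction s using Finset.induction with
  | empty =>
    simp only [Finset.sum_empty]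
    have h0 : Averageable (0 : ℍ → ℂ) := by simpa using Averageable.sum h
    simpa [← Pi.zero_def] using avg_const_mul h0 0
  | insert a s ha ih =>
    rw [Finset.forall_mem_insert] at h
    rw [Finset.sum_insert ha, Finset.sum_insert ha, avg_add h.1 (Averageable.sum h.2), ih h.2]

/-- Invariance of the average under `GL(2, ℚ)`. -/
lemma avg_comp_smul {H : ℍ → ℂ} (h : Averageable H) (q : GL (Fin 2) ℚ) :
    avg (fun τ ↦ H (q.map (Rat.castHom ℝ) • τ)) = avg H := by
  obtain ⟨G, hG, hle, hinv⟩ := h.invariant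
  set a := q.map (Rat.castHom ℝ) with ha
  have hG' : (G.comap (MulAut.conj a).toMonoidHom).IsArithmetic := by
    convert Subgroup.IsArithmetic.conj G q⁻¹ using 1
    ext g
    rw [map_inv, ConjAct.toConjAct_inv, Subgroup.mem_inv_pointwise_smul_iff, ConjAct.toConjAct_smul]
    rfl
  have : Countable G := countable_of_isArithmetic G
  have hw := isTiling_baseWeight.refine hle
  rw [avg_eq h G hinv hw, avg_eq (h.comp_smul q) (G.comap (MulAut.conj a).toMonoidHom)
    (fun g hg τ ↦ by simpa [smul_smul, ha] using hinv _ hg (a • τ)) (hw.comp_smul a)]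
  exact average_withDensity_comp_smul a hw.measurable H

/-- A nonnegative automorphic function with zero average vanishes. -/
lemma eq_zero_of_avg_eq_zero {F : ℍ → ℝ} (h : Averageable fun τ ↦ (F τ : ℂ))
    (hnn : ∀ τ, 0 ≤ F τ) (h0 : avg (fun τ ↦ (F τ : ℂ)) = 0) : F = 0 := by
  obtain ⟨G, hG, hle, hinv⟩ := h.invariant
  have : Countable G := countable_of_isArithmetic G
  have hw := isTiling_baseWeight.refine hle
  rw [avg_eq_domainMeasure h G hle hinv, average_eq, integral_complex_ofReal, smul_eq_zero] at h0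
  have hcont : Continuous F := Complex.continuous_re.comp h.continuous
  have hFinv : ∀ g ∈ G, ∀ τ, F (g • τ) = F τ := fun g hg τ ↦ by simpa using hinv g hg τ
  have hpos : (domainMeasure G) Set.univ ≠ 0 := by
    rw [domainMeasure, withDensity_apply _ MeasurableSet.univ, setLIntegral_univ]
    exact hw.lintegral_ne_zero (NeZero.ne _)
  have hint : ∫ τ, F τ ∂domainMeasure G = 0 := by
    rcases h0 with h0 | h0
    · rw [inv_eq_zero, measureReal_eq_zero_iff] at h0
      exact absurd h0 hpos
    · exact_mod_cast h0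
  have hae : F =ᵐ[domainMeasure G] 0 :=
    (integral_eq_zero_iff_of_nonneg hnn
      (by simpa using (h.integrable (domainMeasure G)).re)).mp hint
  have hlint : ∫⁻ τ, refineWeight G 𝒮ℒ baseWeight τ * ENNReal.ofReal (F τ) = 0 := by
    have hl := lintegral_withDensity_eq_lintegral_mul (volume : Measure ℍ) hw.measurable
      (g := fun τ ↦ ENNReal.ofReal (F τ)) (hcont.measurable.ennreal_ofReal)
    simp only [Pi.mul_apply] at hl
    rw [← hl, lintegral_eq_zero_iff hcont.measurable.ennreal_ofReal]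
    filter_upwards [hae] with τ hτ
    simp [hτ]
  have hae' : F =ᵐ[(volume : Measure ℍ)] 0 := by
    filter_upwards [hw.ae_eq_zero_of_lintegral_eq_zero hcont.measurable.ennreal_ofReal
      (fun g hg τ ↦ by rw [hFinv g hg]) hlint] with τ hτ
    exact le_antisymm (ENNReal.ofReal_eq_zero.mp hτ) (hnn τ)
  exact (hcont.ae_eq_iff_eq _ continuous_const).mp hae'

end Fermat.Agent.Petersson
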