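import Mathlib.NumberTheory.ModularForms.Bounds
import Fermat.Agent.Petersson.Average

/-!
# The Petersson inner product

`inner f g = avg (τ ↦ conj (f τ) * g τ * (im τ) ^ k)` for cusp forms of an arithmetic subgroup.
-/

set_option autoImplicit false

noncomputable section

namespace Fermat.Agent.Petersson

open MeasureTheory UpperHalfPlane Matrix.SpecialLinearGroup CongruenceSubgroup
open scoped MatrixGroups ModularForm Modular ComplexConjugate Pointwise Manifold

lemma norm_petersson_le (k : ℤ) (f f' : ℍ → ℂ) (τ : ℍ) :
    ‖petersson k f f' τ‖ ≤ ‖petersson k f f τ‖ + ‖petersson k f' f' τ‖ := by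
  simp only [petersson, norm_mul, Complex.norm_conj]
  rw [← add_mul]
  gcongr
  nlinarith [sq_nonneg (‖f τ‖ - ‖f' τ‖), norm_nonneg (f τ), norm_nonneg (f' τ)]

/-- Petersson products of cusp forms (possibly for different arithmetic groups) are averageable. -/
lemma averageable_petersson {k : ℤ} (Γ₁ Γ₂ : Subgroup (GL (Fin 2) ℝ))
    [Γ₁.IsArithmetic] [Γ₂.IsArithmetic]
    {F F' : Type*} [FunLike F ℍ ℂ] [FunLike F' ℍ ℂ] [CuspFormClass F Γ₁ k]
    [CuspFormClass F' Γ₂ k] (f : F) (f' : F') :
    Averageable (petersson k f f') := by
  obtain ⟨C, hC⟩ := CuspFormClass.petersson_bounded_left k Γ₁ f f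
  obtain ⟨C', hC'⟩ := CuspFormClass.petersson_bounded_left k Γ₂ f' f'
  refine ⟨petersson_continuous k (ModularFormClass.holo f).continuous
      (ModularFormClass.holo f').continuous,
    ⟨C + C', fun τ ↦ (norm_petersson_le k _ _ τ).trans (add_le_add (hC τ) (hC' τ))⟩,
    ⟨Γ₁ ⊓ Γ₂ ⊓ 𝒮ℒ, inferInstance, inf_le_right, ?_⟩⟩
  rintro g ⟨⟨h1, h2⟩, ⟨s, rfl⟩⟩ τ
  have e1 := SlashInvariantFormClass.slash_action_eq f _ h1
  have e2 := SlashInvariantFormClass.slash_action_eq f' _ h2
  have e := petersson_slash k f f' (mapGL ℝ s) τ
  rw [e1, e2] at e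
  simpa [σ] using e.symm

variable {N : ℕ} {k : ℤ}

/-- The Petersson inner product on cusp forms of level `Γ₀(N)`, antilinear in the first
variable and normalised by the volume of the fundamental domain. -/
def inner (f g : CuspForm (Gamma0 N) k) : ℂ :=
  avg (petersson k f g)

variable [NeZero N]

/-- The Petersson integrand of two cusp forms is averageable. -/
lemma averageable_inner (f g : CuspForm (Gamma0 N) k) : Averageable (petersson k f g) :=
  averageable_petersson (Gamma0 N : Subgroup (GL (Fin 2) ℝ)) (Gamma0 N) f g

/-- The Petersson inner product is Hermitian. -/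
lemma inner_conj_symm (f g : CuspForm (Gamma0 N) k) : conj (inner g f) = inner f g := by
  rw [inner, inner, ← avg_conj (averageable_inner g f)]
  congr 1
  funext τ
  rw [← petersson_symm]

/-- The Petersson product is additive in the first variable. -/
lemma inner_add_left (f f' g : CuspForm (Gamma0 N) k) :
    inner (f + f') g = inner f g + inner f' g := by
  rw [inner, inner, inner, ← avg_add (averageable_inner f g) (averageable_inner f' g)]
  congr 1
  funext τ
  simp [petersson, add_mul]

/-- The Petersson product is additive in the second variable. -/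
lemma inner_add_right (f g g' : CuspForm (Gamma0 N) k) :
    inner f (g + g') = inner f g + inner f g' := by
  rw [inner, inner, inner, ← avg_add (averageable_inner f g) (averageable_inner f g')]
  congr 1
  funext τ
  simp [petersson, mul_add, add_mul]

/-- The Petersson product is conjugate linear in the first variable. -/
lemma inner_smul_left (c : ℂ) (f g : CuspForm (Gamma0 N) k) :
    inner (c • f) g = conj c * inner f g := by
  rw [inner, inner, ← avg_const_mul (averageable_inner f g)]
  congr 1
  funext τ
  simp [petersson, mul_assoc]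

/-- The Petersson product is linear in the second variable. -/
lemma inner_smul_right (c : ℂ) (f g : CuspForm (Gamma0 N) k) :
    inner f (c • g) = c * inner f g := by
  rw [inner, inner, ← avg_const_mul (averageable_inner f g)]
  congr 1
  funext τ
  simp [petersson]
  ring

/-- The Petersson product with zero on the right vanishes. -/
lemma inner_zero_right (g : CuspForm (Gamma0 N) k) : inner g 0 = 0 := by
  simpa using inner_smul_right 0 g 0

/-- The Petersson inner product is definite. -/
lemma eq_zero_of_inner_self_eq_zero (f : CuspForm (Gamma0 N) k) (h : inner f f = 0) : f = 0 := by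
  have hpet : petersson k f f = fun τ ↦ ((‖f τ‖ ^ 2 * τ.im ^ k : ℝ) : ℂ) := by
    funext τ
    rw [petersson, ← Complex.normSq_eq_conj_mul_self, Complex.normSq_eq_norm_sq]
    push_cast
    ring
  have hav : Averageable fun τ ↦ ((‖f τ‖ ^ 2 * τ.im ^ k : ℝ) : ℂ) :=
    hpet ▸ averageable_inner f f
  rw [inner, hpet] at h
  have h0 := eq_zero_of_avg_eq_zero hav
    (fun τ ↦ mul_nonneg (sq_nonneg _) (zpow_nonneg τ.im_pos.le _)) h
  ext τ
  simpa [zpow_ne_zero k τ.im_ne_zero] using congrFun h0 τ

end Fermat.Agent.Petersson
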