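import Fermat.Prelude.Def_ModularForm_HeckeOperatorForms
import Fermat.Agent.Petersson.Inner

/-!
# Hecke operators at good primes are self-adjoint for the Petersson inner product
-/

set_option autoImplicit false

noncomputable section

namespace Fermat.Agent.Petersson

open MeasureTheory UpperHalfPlane Matrix.SpecialLinearGroup CongruenceSubgroup
open ModularForm (heckeMatrix heckeDiagMatrix heckeT)
open scoped MatrixGroups ModularForm Modular ComplexConjugate Pointwise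

variable {N p : ℕ} {k : ℤ}

/-- `diag(1, p)` with rational entries. -/
def heckeRat (hp : p ≠ 0) : GL (Fin 2) ℚ :=
  Matrix.GeneralLinearGroup.mkOfDetNeZero !![1, 0; 0, (p : ℚ)] (by simpa using hp)

/-- `heckeRat` over `ℝ` is the matrix `heckeMatrix p 0`. -/
lemma map_heckeRat (hp : p ≠ 0) : (heckeRat hp).map (Rat.castHom ℝ) = heckeMatrix p 0 := by
  ext i j
  fin_cases i <;> fin_cases j <;>
    simp [heckeRat, ModularForm.val_heckeMatrix hp, Matrix.GeneralLinearGroup.map]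

lemma map_mapGL_rat (γ : SL(2, ℤ)) :
    (mapGL ℚ γ).map (Rat.castHom ℝ) = (mapGL ℝ γ : GL (Fin 2) ℝ) := by
  ext i j
  fin_cases i <;> fin_cases j <;> simp [Matrix.GeneralLinearGroup.map]

lemma heckeMatrix_eq_mul_T_pow (hp : p ≠ 0) (j : ℕ) :
    heckeMatrix p j = heckeMatrix p 0 * mapGL ℝ (ModularGroup.T ^ (j : ℤ)) := by
  apply Units.ext
  ext i l
  fin_cases i <;> fin_cases l <;>
    simp [ModularForm.val_heckeMatrix hp, Matrix.mul_apply, Fin.sum_univ_two,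
      ModularGroup.coe_T_zpow, -zpow_natCast, -map_zpow]

lemma T_zpow_mem_Gamma0 (n : ℤ) : ModularGroup.T ^ n ∈ Gamma0 N := by
  simp [Gamma0_mem, ModularGroup.coe_T_zpow]

/-- `diag(p, 1)` lies in the double coset of `diag(1, p)`. -/
lemma exists_heckeDiagMatrix_eq (hp : p.Prime) (hpN : ¬ p ∣ N) :
    ∃ γ₁ ∈ Gamma0 N, ∃ γ₂ ∈ Gamma0 N,
      mapGL ℝ γ₁ * heckeDiagMatrix p = heckeMatrix p 0 * mapGL ℝ γ₂ := by
  have hcop : Nat.Coprime p N := (hp.coprime_iff_not_dvd).mpr hpN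
  obtain ⟨d, b, hdb⟩ : IsCoprime (p : ℤ) (N : ℤ) := Nat.isCoprime_iff_coprime.mpr hcop
  obtain ⟨γ₁, h₁⟩ : ∃ γ : SL(2, ℤ), γ.1 = !![1, -b; (N : ℤ), (p : ℤ) * d] :=
    ⟨⟨_, by rw [Matrix.det_fin_two_of]; linear_combination hdb⟩, rfl⟩
  obtain ⟨γ₂, h₂⟩ : ∃ γ : SL(2, ℤ), γ.1 = !![(p : ℤ), -b; (N : ℤ), d] :=
    ⟨⟨_, by rw [Matrix.det_fin_two_of]; linear_combination hdb⟩, rfl⟩
  refine ⟨γ₁, Gamma0_mem.mpr (by simp [h₁]), γ₂, Gamma0_mem.mpr (by simp [h₂]), ?_⟩
  apply Units.ext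
  ext i l
  fin_cases i <;> fin_cases l <;>
    simp [ModularForm.val_heckeMatrix hp.ne_zero, ModularForm.val_heckeDiagMatrix hp.ne_zero,
      Matrix.mul_apply, Fin.sum_univ_two, h₁, h₂]
  ring

/-- `diag(p, 1) * diag(1, p)` acts as a scalar. -/
lemma slash_heckeDiag_slash_hecke (hp : p ≠ 0) (g : ℍ → ℂ) :
    (g ∣[k] heckeDiagMatrix p) ∣[k] heckeMatrix p 0 = (p : ℂ) ^ (k - 2) • g := by
  funext τ
  have hp' : (p : ℂ) ≠ 0 := by exact_mod_cast hp
  rw [ModularForm.slash_heckeMatrix_apply k hp, ModularForm.slash_heckeDiagMatrix_apply k hp,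
    Pi.smul_apply, smul_eq_mul, ← mul_assoc]
  have hτ : heckeDiagMatrix p • heckeMatrix p 0 • τ = τ := by
    ext
    rw [ModularForm.coe_heckeDiagMatrix_smul hp, ModularForm.coe_heckeMatrix_smul hp]
    field_simp
    simp
  rw [hτ, show (k - 2 : ℤ) = -1 + (k - 1) by ring, zpow_add₀ hp', zpow_neg_one]

variable [NeZero N]

omit [NeZero N] in
lemma slash_mapGL_eq (f : CuspForm (Gamma0 N) k) {γ : SL(2, ℤ)} (hγ : γ ∈ Gamma0 N) :
    (⇑f) ∣[k] (mapGL ℝ γ : GL (Fin 2) ℝ) = ⇑f :=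
  SlashInvariantFormClass.slash_action_eq f _ (Subgroup.mem_map_of_mem _ hγ)

/-- The Petersson integrand with the first form translated by `GL(2, ℚ)` is averageable. -/
lemma averageable_slash (f g : CuspForm (Gamma0 N) k) (q : GL (Fin 2) ℚ) :
    Averageable (petersson k (⇑f ∣[k] q.map (Rat.castHom ℝ)) g) := by
  have h1 : (ConjAct.toConjAct (q.map (Rat.castHom ℝ))⁻¹ •
      (Gamma0 N : Subgroup (GL (Fin 2) ℝ))).IsArithmetic := by
    rw [← map_inv]
    exact Subgroup.IsArithmetic.conj _ q⁻¹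
  exact averageable_petersson _ (Gamma0 N) (CuspForm.translate f (q.map (Rat.castHom ℝ))) g

/-- The Petersson integrand with the second form translated by `GL(2, ℚ)` is averageable. -/
lemma averageable_slash_right (f g : CuspForm (Gamma0 N) k) (q : GL (Fin 2) ℚ) :
    Averageable (petersson k f (⇑g ∣[k] q.map (Rat.castHom ℝ))) := by
  have := (averageable_slash g f q).conjugate
  convert this using 1
  funext τ
  exact petersson_symm k _ _ τ

/-- The basic correlation `⟨f | diag(1,p), g⟩`. -/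
def heckeCorr (p : ℕ) (f g : CuspForm (Gamma0 N) k) : ℂ :=
  avg (petersson k (⇑f ∣[k] heckeMatrix p 0) g)

lemma petersson_slash_mapGL (f g : ℍ → ℂ) (γ : SL(2, ℤ)) (τ : ℍ) :
    petersson k (f ∣[k] (mapGL ℝ γ : GL (Fin 2) ℝ)) (g ∣[k] (mapGL ℝ γ : GL (Fin 2) ℝ)) τ =
      petersson k f g ((mapGL ℝ γ : GL (Fin 2) ℝ) • τ) :=
  petersson_slash_SL k f g γ τ

/-- Each term of `T_p f` has the same correlation with `g`. -/
lemma avg_petersson_slash_slash (hp : p ≠ 0) (f g : CuspForm (Gamma0 N) k) {γ : SL(2, ℤ)}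
    (hγ : γ ∈ Gamma0 N) :
    Averageable (petersson k ((⇑f ∣[k] heckeMatrix p 0) ∣[k] (mapGL ℝ γ : GL (Fin 2) ℝ)) g) ∧
    avg (petersson k ((⇑f ∣[k] heckeMatrix p 0) ∣[k] (mapGL ℝ γ : GL (Fin 2) ℝ)) g) =
      heckeCorr p f g := by
  have hH : Averageable (petersson k (⇑f ∣[k] heckeMatrix p 0) g) := by
    simpa [map_heckeRat hp] using averageable_slash f g (heckeRat hp)
  have heq : petersson k ((⇑f ∣[k] heckeMatrix p 0) ∣[k] (mapGL ℝ γ : GL (Fin 2) ℝ)) g =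
      fun τ ↦ petersson k (⇑f ∣[k] heckeMatrix p 0) g
        ((mapGL ℚ γ).map (Rat.castHom ℝ) • τ) := by
    funext τ
    rw [map_mapGL_rat, ← petersson_slash_mapGL, slash_mapGL_eq g hγ]
  rw [heq]
  exact ⟨hH.comp_smul _, avg_comp_smul hH _⟩

/-- The adjoint of `diag(1,p)`. -/
lemma heckeCorr_symm (hp : p.Prime) (hpN : ¬ p ∣ N) (f g : CuspForm (Gamma0 N) k) :
    conj (heckeCorr p g f) = heckeCorr p f g := by
  obtain ⟨γ₁, hγ₁, γ₂, hγ₂, hγ⟩ := exists_heckeDiagMatrix_eq hp hpN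
  have hp0 := hp.ne_zero
  set α := heckeMatrix p 0
  set β := heckeDiagMatrix p
  have hdiag : (⇑g) ∣[k] β = (⇑g ∣[k] α) ∣[k] (mapGL ℝ γ₂ : GL (Fin 2) ℝ) := by
    rw [← SlashAction.slash_mul, ← hγ, SlashAction.slash_mul, slash_mapGL_eq g hγ₁]
  have hR : Averageable (petersson k f (⇑g ∣[k] α)) := by
    simpa [α, map_heckeRat hp0] using averageable_slash_right f g (heckeRat hp0)
  have h1 : petersson k f (⇑g ∣[k] β) =
      fun τ ↦ petersson k f (⇑g ∣[k] α) ((mapGL ℚ γ₂).map (Rat.castHom ℝ) • τ) := by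
    funext τ
    rw [map_mapGL_rat, ← petersson_slash_mapGL, slash_mapGL_eq f hγ₂, hdiag]
  have h2 : petersson k (⇑f ∣[k] α) g =
      fun τ ↦ petersson k f (⇑g ∣[k] β) ((heckeRat hp0).map (Rat.castHom ℝ) • τ) := by
    funext τ
    have e := petersson_slash k f (⇑g ∣[k] β) α τ
    rw [slash_heckeDiag_slash_hecke hp0, ModularForm.det_heckeMatrix hp0] at e
    simp only [σ, ModularForm.det_heckeMatrix_pos, if_true, α, ContinuousAlgEquiv.refl_apply,
      Nat.abs_cast, Complex.ofReal_natCast] at e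
    rw [map_heckeRat hp0]
    have hpz : (p : ℂ) ^ (k - 2) ≠ 0 := zpow_ne_zero _ (by exact_mod_cast hp0)
    apply mul_left_cancel₀ hpz
    rw [← e]
    simp only [α, petersson, Pi.smul_apply, smul_eq_mul]
    ring
  have hR' : Averageable (petersson k f (⇑g ∣[k] β)) := by
    rw [h1]; exact hR.comp_smul _
  rw [heckeCorr, heckeCorr, h2, avg_comp_smul hR' _, h1, avg_comp_smul hR _]
  have hG : Averageable (petersson k (⇑g ∣[k] α) f) := by
    simpa [α, map_heckeRat hp0] using averageable_slash g f (heckeRat hp0)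
  rw [← avg_conj hG]
  congr 1
  funext τ
  rw [← petersson_symm]

/-- The inner product with `T_p f` in terms of the basic correlation. -/
lemma inner_heckeTLin_left (hp : p.Prime) (hpN : ¬ p ∣ N) (f g : CuspForm (Gamma0 N) k) :
    inner (CuspForm.heckeTLin k hp hpN f) g = ((p : ℂ) + 1) * heckeCorr p f g := by
  obtain ⟨γ₁, hγ₁, γ₂, hγ₂, hγ⟩ := exists_heckeDiagMatrix_eq hp hpN
  have hterm : ∀ j : ℕ, (⇑f) ∣[k] heckeMatrix p j =
      (⇑f ∣[k] heckeMatrix p 0) ∣[k] (mapGL ℝ (ModularGroup.T ^ (j : ℤ)) : GL (Fin 2) ℝ) := by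
    intro j
    rw [heckeMatrix_eq_mul_T_pow hp.ne_zero j, SlashAction.slash_mul]
  have hdiag : (⇑f) ∣[k] heckeDiagMatrix p =
      (⇑f ∣[k] heckeMatrix p 0) ∣[k] (mapGL ℝ γ₂ : GL (Fin 2) ℝ) := by
    rw [← SlashAction.slash_mul, ← hγ, SlashAction.slash_mul, slash_mapGL_eq f hγ₁]
  have hT : heckeT k p f = (∑ j ∈ Finset.range p, (⇑f ∣[k] heckeMatrix p 0)
        ∣[k] (mapGL ℝ (ModularGroup.T ^ (j : ℤ)) : GL (Fin 2) ℝ)) +
      (⇑f ∣[k] heckeMatrix p 0) ∣[k] (mapGL ℝ γ₂ : GL (Fin 2) ℝ) := by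
    rw [ModularForm.heckeT_def, hdiag, Finset.sum_congr rfl fun j _ ↦ hterm j]
  have hexp : petersson k (heckeT k p f) g =
      (∑ j ∈ Finset.range p, petersson k ((⇑f ∣[k] heckeMatrix p 0)
        ∣[k] (mapGL ℝ (ModularGroup.T ^ (j : ℤ)) : GL (Fin 2) ℝ)) g) +
      petersson k ((⇑f ∣[k] heckeMatrix p 0) ∣[k] (mapGL ℝ γ₂ : GL (Fin 2) ℝ)) g := by
    funext τ
    simp only [petersson, hT, Pi.add_apply, Finset.sum_apply, map_add, map_sum, Finset.sum_mul,
      add_mul]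
  have hsum : ∀ j ∈ Finset.range p, _ :=
    fun j _ ↦ (avg_petersson_slash_slash hp.ne_zero f g (T_zpow_mem_Gamma0 (N := N) (j : ℤ))).1
  rw [inner, CuspForm.coe_heckeTLin_apply, hexp,
    avg_add (Averageable.sum hsum) (avg_petersson_slash_slash hp.ne_zero f g hγ₂).1,
    avg_sum hsum, (avg_petersson_slash_slash hp.ne_zero f g hγ₂).2,
    Finset.sum_congr (s₁ := Finset.range p) rfl (fun (j : ℕ) _ ↦
      (avg_petersson_slash_slash hp.ne_zero f g (T_zpow_mem_Gamma0 (N := N) (j : ℤ))).2)]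
  simp [add_mul]

/-- `T_p` is self-adjoint for `p ∤ N`. -/
theorem inner_heckeTLin_comm (hp : p.Prime) (hpN : ¬ p ∣ N) (f g : CuspForm (Gamma0 N) k) :
    inner (CuspForm.heckeTLin k hp hpN f) g = inner f (CuspForm.heckeTLin k hp hpN g) := by
  rw [← inner_conj_symm f (CuspForm.heckeTLin k hp hpN g), inner_heckeTLin_left,
    inner_heckeTLin_left, map_mul, heckeCorr_symm hp hpN]
  simp

end Fermat.Agent.Petersson
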