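import Mathlib.LinearAlgebra.Eigenspace.Pi
import Mathlib.LinearAlgebra.Eigenspace.Triangularizable
import Fermat.Prelude.Def_CuspForm_HeckeAlgebra
import Fermat.Agent.HeckeLift.Basic
import Fermat.Agent.Petersson.HeckeAdjoint

/-!
# Semisimplicity of the anemic Hecke algebra

If `S` contains every prime dividing `N`, then every element of `heckeAlgebra N k S` is
self-adjoint for the Petersson inner product. Hence the algebra is reduced, eigenvalues are real,
and `S_k(Γ₀(N))` has a basis of simultaneous eigenvectors.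
-/

set_option autoImplicit false

noncomputable section

namespace Fermat.Agent.Petersson

open CongruenceSubgroup
open scoped ComplexConjugate IsMulCommutative

variable {N : ℕ} [NeZero N] {k : ℤ} {S : Set ℕ}

/-- Elements of the anemic Hecke algebra are self-adjoint. -/
theorem inner_comm_of_mem_heckeAlgebra (hS : ∀ q : ℕ, q.Prime → q ∣ N → q ∈ S)
    {t : Module.End ℂ (CuspForm (Gamma0 N) k)} (ht : t ∈ CuspForm.heckeAlgebra N k S)
    (f g : CuspForm (Gamma0 N) k) : inner (t f) g = inner f (t g) := by
  induction ht using Algebra.adjoin_induction generalizing f g with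
  | mem x hx =>
    rcases hx with ⟨l, hl, hlN, -, rfl⟩ | ⟨q, hqN, hq, hqS, -⟩
    · exact inner_heckeTLin_comm hl hlN f g
    · exact absurd (hS q hq hqN) hqS
  | algebraMap r =>
    rw [Module.algebraMap_end_apply, Module.algebraMap_end_apply, ← Int.cast_smul_eq_zsmul ℂ r f,
      ← Int.cast_smul_eq_zsmul ℂ r g, inner_smul_left, inner_smul_right]
    simp
  | add x y _ _ hx hy =>
    simp only [LinearMap.add_apply, inner_add_left, inner_add_right, hx, hy]
  | mul x y hxm hym hx hy =>
    have hcomm : y * x = x * y :=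
      congrArg Subtype.val (mul_comm (⟨y, hym⟩ : CuspForm.heckeAlgebra N k S) ⟨x, hxm⟩)
    rw [show inner ((x * y) f) g = inner (x (y f)) g from rfl, hx, hy,
      ← Module.End.mul_apply, hcomm]

lemma eq_zero_of_symm_of_apply_apply_eq_zero {t : Module.End ℂ (CuspForm (Gamma0 N) k)}
    (ht : ∀ f g, inner (t f) g = inner f (t g)) {f : CuspForm (Gamma0 N) k}
    (h : t (t f) = 0) : t f = 0 :=
  eq_zero_of_inner_self_eq_zero _ (by rw [ht, h, inner_zero_right])

/-- The anemic Hecke algebra is reduced. -/
theorem isReduced_heckeAlgebra (hS : ∀ q : ℕ, q.Prime → q ∣ N → q ∈ S) :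
    IsReduced (CuspForm.heckeAlgebra N k S) := by
  refine isReduced_iff_pow_one_lt 2 one_lt_two |>.mpr fun x hx ↦ ?_
  apply Subtype.ext
  refine LinearMap.ext fun f ↦ eq_zero_of_symm_of_apply_apply_eq_zero
    (inner_comm_of_mem_heckeAlgebra hS x.2) ?_
  rw [← Module.End.mul_apply, ← sq, ← SubmonoidClass.coe_pow, hx]
  rfl

/-- Eigenvalues of self-adjoint operators are real. -/
theorem conj_eigenvalue_eq {t : Module.End ℂ (CuspForm (Gamma0 N) k)}
    (ht : ∀ f g, inner (t f) g = inner f (t g)) {f : CuspForm (Gamma0 N) k} (hf : f ≠ 0) {c : ℂ}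
    (h : t f = c • f) : conj c = c := by
  have h0 : inner f f ≠ 0 := fun h0 ↦ hf (eq_zero_of_inner_self_eq_zero f h0)
  have := ht f f
  rw [h, inner_smul_left, inner_smul_right] at this
  exact mul_right_cancel₀ h0 this

/-- Generalised eigenvectors of self-adjoint operators are eigenvectors. -/
theorem apply_eq_smul_of_mem_maxGenEigenspace {t : Module.End ℂ (CuspForm (Gamma0 N) k)}
    (ht : ∀ f g, inner (t f) g = inner f (t g)) {f : CuspForm (Gamma0 N) k} {c : ℂ}
    (h : f ∈ t.maxGenEigenspace c) : t f = c • f := by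
  rw [Module.End.mem_maxGenEigenspace] at h
  obtain ⟨n, hn⟩ := h
  induction n generalizing f with
  | zero =>
    have : f = 0 := by simpa using hn
    simp [this]
  | succ n ih =>
    rw [pow_succ, Module.End.mul_apply] at hn
    have h1 := ih hn
    set g := (t - c • (1 : Module.End ℂ (CuspForm (Gamma0 N) k))) f with hg
    by_cases hg0 : g = 0
    · simpa [hg, sub_eq_zero] using hg0
    · exfalso
      have hc := conj_eigenvalue_eq ht hg0 h1
      have hsymm : ∀ x y, inner ((t - c • (1 : Module.End ℂ (CuspForm (Gamma0 N) k))) x) y =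
          inner x ((t - c • (1 : Module.End ℂ (CuspForm (Gamma0 N) k))) y) := by
        intro x y
        simp only [LinearMap.sub_apply, LinearMap.smul_apply, Module.End.one_apply]
        rw [sub_eq_add_neg, sub_eq_add_neg, inner_add_left, inner_add_right, ← neg_smul,
          ← neg_smul, inner_smul_left, inner_smul_right, ht, map_neg, hc]
      refine hg0 (eq_zero_of_symm_of_apply_apply_eq_zero hsymm ?_)
      simp [← hg, h1]

/-- `S_k(Γ₀(N))` is spanned by simultaneous eigenvectors of the anemic Hecke algebra. -/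
theorem iSup_iInf_eigenspace_heckeAlgebra (hS : ∀ q : ℕ, q.Prime → q ∣ N → q ∈ S) :
    ⨆ χ : CuspForm.heckeAlgebra N k S → ℂ,
      ⨅ t : CuspForm.heckeAlgebra N k S,
        Module.End.eigenspace (t : Module.End ℂ (CuspForm (Gamma0 N) k)) (χ t) = ⊤ := by
  have : FiniteDimensional ℂ (CuspForm (Gamma0 N) k) := HeckeLift.finiteDimensional_cuspForm
  have key := Module.End.iSup_iInf_maxGenEigenspace_eq_top_of_iSup_maxGenEigenspace_eq_top_of_commute
    (fun t : CuspForm.heckeAlgebra N k S ↦ (t : Module.End ℂ (CuspForm (Gamma0 N) k)))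
    (fun a b _ ↦ congrArg Subtype.val (mul_comm a b))
    fun t ↦ Module.End.iSup_maxGenEigenspace_eq_top _
  refine top_le_iff.mp (key.ge.trans (iSup_mono fun χ ↦ iInf_mono fun t f hf ↦ ?_))
  exact Module.End.mem_eigenspace_iff.mpr
    (apply_eq_smul_of_mem_maxGenEigenspace (inner_comm_of_mem_heckeAlgebra hS t.2) hf)

end Fermat.Agent.Petersson
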